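import Mathlib

/-! # S26 / M4a : the completion of a formally smooth local `K`-algebra with residue field `K`. -/

set_option autoImplicit false

namespace Fermat.Agent.S26.Completion


open MvPolynomial

section abstract

variable {K O σ : Type*} [CommRing K] [CommRing O] [Algebra K O]
  (m : Ideal O) (φ : MvPolynomial σ K →ₐ[K] O)

theorem map_pow_mem (ha : ∀ i, φ (X i) ∈ m) (n : ℕ) (p : MvPolynomial σ K)
    (hp : p ∈ idealOfVars σ K ^ n) : φ p ∈ m ^ n := by
  have h1 : idealOfVars σ K ≤ m.comap φ.toRingHom := by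
    rw [idealOfVars, Ideal.span_le]
    rintro _ ⟨i, rfl⟩
    exact ha i
  have h2 : idealOfVars σ K ^ n ≤ (m ^ n).comap φ.toRingHom :=
    (Ideal.pow_right_mono h1 n).trans (Ideal.le_comap_pow _ _)
  exact h2 hp

/-- graded surjectivity -/
theorem exists_mem_pow_sub_mem (hs : ∀ a, ∃ p, a - φ p ∈ m ^ 2)
    (hc1 : ∀ p, φ p ∈ m → p ∈ idealOfVars σ K) (d : ℕ) :
    ∀ a ∈ m ^ d, ∃ p ∈ idealOfVars σ K ^ d, a - φ p ∈ m ^ (d + 1) := by
  induction d with
  | zero =>
    intro a _
    obtain ⟨p, hp⟩ := hs a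
    exact ⟨p, by simp, Ideal.pow_le_pow_right (by norm_num) hp⟩
  | succ d ih =>
    intro a hmem
    rw [pow_succ'] at hmem
    refine Submodule.mul_induction_on hmem ?_ ?_
    · intro a₁ h₁ a₂ h₂
      obtain ⟨p₁, hp₁⟩ := hs a₁
      have hp₁m : φ p₁ ∈ m := by
        have : a₁ - φ p₁ ∈ m := Ideal.pow_le_self (by norm_num) hp₁
        have h := m.sub_mem h₁ this
        simpa using h
      obtain ⟨p₂, hp₂, hp₂'⟩ := ih a₂ h₂
      refine ⟨p₁ * p₂, ?_, ?_⟩
      · rw [pow_succ']
        exact Ideal.mul_mem_mul (hc1 _ hp₁m) hp₂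
      · have e : a₁ * a₂ - φ (p₁ * p₂) = (a₁ - φ p₁) * a₂ + φ p₁ * (a₂ - φ p₂) := by
          rw [map_mul]; ring
        rw [e]
        apply Ideal.add_mem
        · have : (a₁ - φ p₁) * a₂ ∈ m ^ 2 * m ^ d := Ideal.mul_mem_mul hp₁ h₂
          rwa [← pow_add, show 2 + d = d + 1 + 1 by ring] at this
        · have : φ p₁ * (a₂ - φ p₂) ∈ m * m ^ (d + 1) := Ideal.mul_mem_mul hp₁m hp₂'
          rwa [← pow_succ'] at this
    · rintro a₁ a₂ ⟨p₁, hp₁, hp₁'⟩ ⟨p₂, hp₂, hp₂'⟩
      refine ⟨p₁ + p₂, Ideal.add_mem _ hp₁ hp₂, ?_⟩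
      have e : a₁ + a₂ - φ (p₁ + p₂) = (a₁ - φ p₁) + (a₂ - φ p₂) := by
        rw [map_add]; ring
      rw [e]
      exact Ideal.add_mem _ hp₁' hp₂'

/-- surjectivity at every level -/
theorem exists_sub_mem_pow (hs : ∀ a, ∃ p, a - φ p ∈ m ^ 2)
    (hc1 : ∀ p, φ p ∈ m → p ∈ idealOfVars σ K) (n : ℕ) (a : O) :
    ∃ p, a - φ p ∈ m ^ n := by
  induction n with
  | zero => exact ⟨0, by simp⟩
  | succ n ih =>
    obtain ⟨p, hp⟩ := ih
    obtain ⟨q, -, hq⟩ := exists_mem_pow_sub_mem m φ hs hc1 n _ hp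
    refine ⟨p + q, ?_⟩
    have e : a - φ (p + q) = a - φ p - φ q := by rw [map_add]; ring
    rw [e]; exact hq

end abstract



open MvPolynomial

section abstract

variable {K O σ : Type*} [CommRing K] [CommRing O] [Algebra K O]
  (m : Ideal O) (φ : MvPolynomial σ K →ₐ[K] O)

/-- an endomorphism of the polynomial ring which is the identity modulo `(X)^2` -/
theorem tau_sub_mem (τ : MvPolynomial σ K →ₐ[K] MvPolynomial σ K)
    (hτ : ∀ i, τ (X i) - X i ∈ idealOfVars σ K ^ 2) (d : ℕ) :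
    ∀ p ∈ idealOfVars σ K ^ d, τ p - p ∈ idealOfVars σ K ^ (d + 1) := by
  have h0 : ∀ p, τ p - p ∈ idealOfVars σ K ^ 2 := by
    have : (Ideal.Quotient.mkₐ K (idealOfVars σ K ^ 2)).comp τ =
        Ideal.Quotient.mkₐ K (idealOfVars σ K ^ 2) := by
      apply MvPolynomial.algHom_ext
      intro i
      exact (Ideal.Quotient.eq).mpr (hτ i)
    intro p
    exact (Ideal.Quotient.eq).mp (AlgHom.congr_fun this p)
  induction d with
  | zero =>
    intro p _
    exact Ideal.pow_le_pow_right (by norm_num) (h0 p)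
  | succ d ih =>
    intro p hp
    rw [pow_succ'] at hp
    refine Submodule.mul_induction_on hp ?_ ?_
    · intro q hq r hr
      have e : τ (q * r) - q * r = τ q * (τ r - r) + (τ q - q) * r := by
        rw [map_mul]; ring
      rw [e]
      have hτq : τ q ∈ idealOfVars σ K := by
        have h := Ideal.add_mem _ (Ideal.pow_le_self (by norm_num) (h0 q)) hq
        simpa using h
      apply Ideal.add_mem
      · have := Ideal.mul_mem_mul hτq (ih r hr)
        rwa [← pow_succ'] at this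
      · have := Ideal.mul_mem_mul (h0 q) hr
        rwa [← pow_add, show 2 + d = d + 1 + 1 by ring] at this
    · intro q r hq hr
      have e : τ (q + r) - (q + r) = (τ q - q) + (τ r - r) := by
        rw [map_add]; ring
      rw [e]
      exact Ideal.add_mem _ hq hr

theorem mem_pow_of_tau_mem (τ : MvPolynomial σ K →ₐ[K] MvPolynomial σ K)
    (hτ : ∀ i, τ (X i) - X i ∈ idealOfVars σ K ^ 2) (n : ℕ) (p : MvPolynomial σ K)
    (hp : τ p ∈ idealOfVars σ K ^ n) : p ∈ idealOfVars σ K ^ n := by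
  have : ∀ d, d ≤ n → p ∈ idealOfVars σ K ^ d := by
    intro d
    induction d with
    | zero => intro _; simp
    | succ d ih =>
      intro hd
      have h1 := tau_sub_mem τ hτ d p (ih (by omega))
      have h2 : τ p ∈ idealOfVars σ K ^ (d + 1) := Ideal.pow_le_pow_right hd hp
      have h3 := Ideal.sub_mem _ h2 h1
      simpa using h3
  exact this n le_rfl

/-- injectivity at every level -/
theorem mem_pow_of_map_mem [Algebra.FormallySmooth K O]
    (ha : ∀ i, φ (X i) ∈ m) (hs : ∀ a, ∃ p, a - φ p ∈ m ^ 2)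
    (hc1 : ∀ p, φ p ∈ m → p ∈ idealOfVars σ K)
    (hc2 : ∀ p, φ p ∈ m ^ 2 → p ∈ idealOfVars σ K ^ 2)
    (n : ℕ) (p : MvPolynomial σ K) (hp : φ p ∈ m ^ n) : p ∈ idealOfVars σ K ^ n := by
  set IA := idealOfVars σ K with hIA
  set N := n + 2 with hN
  let g : (MvPolynomial σ K ⧸ IA ^ N) →ₐ[K] O ⧸ m ^ 2 :=
    Ideal.Quotient.liftₐ (IA ^ N) ((Ideal.Quotient.mkₐ K (m ^ 2)).comp φ) (by
      intro q hq
      have h1 := map_pow_mem m φ ha N q hq
      have h2 : φ q ∈ m ^ 2 := Ideal.pow_le_pow_right (by omega) h1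
      exact Ideal.Quotient.eq_zero_iff_mem.mpr h2)
  have hg_mk : ∀ q, g (Ideal.Quotient.mk _ q) = Ideal.Quotient.mk _ (φ q) := fun q => rfl
  have hg_surj : Function.Surjective g := by
    intro y
    obtain ⟨a, rfl⟩ := Ideal.Quotient.mk_surjective y
    obtain ⟨q, hq⟩ := hs a
    exact ⟨Ideal.Quotient.mk _ q, by rw [hg_mk]; exact ((Ideal.Quotient.eq).mpr hq).symm⟩
  have hker : RingHom.ker (g : (MvPolynomial σ K ⧸ IA ^ N) →+* O ⧸ m ^ 2) ≤ IA.map (Ideal.Quotient.mk (IA ^ N)) := by
    intro y hy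
    obtain ⟨q, rfl⟩ := Ideal.Quotient.mk_surjective y
    have h1 : g (Ideal.Quotient.mk _ q) = 0 := hy
    rw [hg_mk, Ideal.Quotient.eq_zero_iff_mem] at h1
    exact Ideal.mem_map_of_mem _ (hc1 q (Ideal.pow_le_self (by norm_num) h1))
  have hnil : IsNilpotent (RingHom.ker (g : (MvPolynomial σ K ⧸ IA ^ N) →+* O ⧸ m ^ 2)) := by
    refine ⟨N, ?_⟩
    rw [Ideal.zero_eq_bot, eq_bot_iff]
    refine (Ideal.pow_right_mono hker N).trans ?_
    rw [← Ideal.map_pow, Ideal.map_quotient_self]
  let ψ : O →ₐ[K] (MvPolynomial σ K ⧸ IA ^ N) :=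
    Algebra.FormallySmooth.liftOfSurjective (Ideal.Quotient.mkₐ K (m ^ 2)) g hg_surj hnil
  have hψ : ∀ a, g (ψ a) = Ideal.Quotient.mk _ a := fun a =>
    Algebra.FormallySmooth.liftOfSurjective_apply (Ideal.Quotient.mkₐ K (m ^ 2)) g hg_surj hnil a
  have hlift : ∀ i, ∃ q, Ideal.Quotient.mk (IA ^ N) q = ψ (φ (X i)) :=
    fun i => Ideal.Quotient.mk_surjective _
  choose τ₀ hτ₀ using hlift
  let τ : MvPolynomial σ K →ₐ[K] MvPolynomial σ K := aeval τ₀
  have hτX : ∀ i, τ (X i) = τ₀ i := fun i => aeval_X _ _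
  have hcomp : (Ideal.Quotient.mkₐ K (IA ^ N)).comp τ = ψ.comp φ := by
    apply MvPolynomial.algHom_ext
    intro i
    show Ideal.Quotient.mk (IA ^ N) (τ (X i)) = ψ (φ (X i))
    rw [hτX, hτ₀]
  have hτ : ∀ i, τ (X i) - X i ∈ IA ^ 2 := by
    intro i
    apply hc2
    rw [map_sub, ← Ideal.Quotient.eq, ← hg_mk, hτX, hτ₀, hψ]
  have hψm : m ≤ (IA.map (Ideal.Quotient.mk (IA ^ N))).comap ψ.toRingHom := by
    intro a hmem
    obtain ⟨q, hq⟩ := Ideal.Quotient.mk_surjective (ψ a)
    have h1 : Ideal.Quotient.mk (m ^ 2) (φ q) = Ideal.Quotient.mk _ a := by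
      rw [← hg_mk, hq, hψ]
    rw [Ideal.Quotient.eq] at h1
    have h2 : φ q ∈ m := by
      have h := Ideal.add_mem _ (Ideal.pow_le_self (by norm_num) h1) hmem
      simpa using h
    show ψ a ∈ IA.map (Ideal.Quotient.mk (IA ^ N))
    rw [← hq]
    exact Ideal.mem_map_of_mem _ (hc1 q h2)
  have hψmn : m ^ n ≤ ((IA ^ n).map (Ideal.Quotient.mk (IA ^ N))).comap ψ.toRingHom := by
    rw [Ideal.map_pow]
    exact (Ideal.pow_right_mono hψm n).trans (Ideal.le_comap_pow _ _)
  have h1 : ψ (φ p) ∈ (IA ^ n).map (Ideal.Quotient.mk (IA ^ N)) := hψmn hp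
  have h2 : Ideal.Quotient.mk (IA ^ N) (τ p) = ψ (φ p) := AlgHom.congr_fun hcomp p
  rw [← h2, Ideal.mem_map_iff_of_surjective _ Ideal.Quotient.mk_surjective] at h1
  obtain ⟨q, hq, hq'⟩ := h1
  rw [Ideal.Quotient.eq] at hq'
  have h3 : τ p ∈ IA ^ n := by
    have h := Ideal.sub_mem _ hq (Ideal.pow_le_pow_right (show n ≤ N by omega) hq')
    simpa using h
  exact mem_pow_of_tau_mem τ hτ n p h3

end abstract



section completion

variable {A B : Type*} [CommRing A] [CommRing B]

theorem factorPow_evalₐ (I : Ideal A) {k n : ℕ} (h : k ≤ n) (x : AdicCompletion I A) :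
    Ideal.Quotient.factorPow I h (AdicCompletion.evalₐ I n x) = AdicCompletion.evalₐ I k x := by
  induction x using AdicCompletion.induction_on with
  | h x =>
    rw [AdicCompletion.evalₐ_mk, AdicCompletion.evalₐ_mk]
    exact (AdicCompletion.Ideal.mk_eq_mk I h x)

/-- a ring homomorphism inducing isomorphisms `A/I^n ≃ B/J^n` induces an isomorphism of
completions. -/
theorem nonempty_equiv_of_levelwise (I : Ideal A) (J : Ideal B) (φ : A →+* B)
    (h1 : ∀ n p, p ∈ I ^ n → φ p ∈ J ^ n) (h2 : ∀ n p, φ p ∈ J ^ n → p ∈ I ^ n)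
    (h3 : ∀ n b, ∃ p, b - φ p ∈ J ^ n) :
    Nonempty (AdicCompletion I A ≃+* AdicCompletion J B) := by
  let f : ∀ n, A ⧸ I ^ n →+* B ⧸ J ^ n := fun n =>
    Ideal.quotientMap (J ^ n) φ (fun p hp => h1 n p hp)
  have hf_mk : ∀ n p, f n (Ideal.Quotient.mk _ p) = Ideal.Quotient.mk _ (φ p) := fun n p => rfl
  have hf_bij : ∀ n, Function.Bijective (f n) := by
    intro n
    constructor
    · rw [injective_iff_map_eq_zero]
      intro y hy
      obtain ⟨p, rfl⟩ := Ideal.Quotient.mk_surjective y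
      rw [hf_mk, Ideal.Quotient.eq_zero_iff_mem] at hy
      exact Ideal.Quotient.eq_zero_iff_mem.mpr (h2 n p hy)
    · intro y
      obtain ⟨b, rfl⟩ := Ideal.Quotient.mk_surjective y
      obtain ⟨p, hp⟩ := h3 n b
      exact ⟨Ideal.Quotient.mk _ p, by rw [hf_mk]; exact ((Ideal.Quotient.eq).mpr hp).symm⟩
  let e : ∀ n, A ⧸ I ^ n ≃+* B ⧸ J ^ n := fun n => RingEquiv.ofBijective (f n) (hf_bij n)
  have he_mk : ∀ n p, e n (Ideal.Quotient.mk _ p) = Ideal.Quotient.mk _ (φ p) := fun n p => rfl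
  have he_comp : ∀ {k n : ℕ} (h : k ≤ n) (y : A ⧸ I ^ n),
      Ideal.Quotient.factorPow J h (e n y) = e k (Ideal.Quotient.factorPow I h y) := by
    intro k n h y
    obtain ⟨p, rfl⟩ := Ideal.Quotient.mk_surjective y
    rw [he_mk]
    rfl
  have he_symm_comp : ∀ {k n : ℕ} (h : k ≤ n) (y : B ⧸ J ^ n),
      Ideal.Quotient.factorPow I h ((e n).symm y) = (e k).symm (Ideal.Quotient.factorPow J h y) := by
    intro k n h y
    apply (e k).injective
    rw [← he_comp, RingEquiv.apply_symm_apply, RingEquiv.apply_symm_apply]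
  let F : AdicCompletion I A →+* AdicCompletion J B :=
    AdicCompletion.liftRingHom J
      (fun n => (e n : A ⧸ I ^ n →+* B ⧸ J ^ n).comp (AdicCompletion.evalₐ I n : _ →+* _))
      (by
        intro k n h
        ext x
        show Ideal.Quotient.factorPow J h (e n (AdicCompletion.evalₐ I n x)) =
          e k (AdicCompletion.evalₐ I k x)
        rw [he_comp, factorPow_evalₐ])
  let G : AdicCompletion J B →+* AdicCompletion I A :=
    AdicCompletion.liftRingHom I
      (fun n => ((e n).symm : B ⧸ J ^ n →+* A ⧸ I ^ n).comp (AdicCompletion.evalₐ J n : _ →+* _))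
      (by
        intro k n h
        ext x
        show Ideal.Quotient.factorPow I h ((e n).symm (AdicCompletion.evalₐ J n x)) =
          (e k).symm (AdicCompletion.evalₐ J k x)
        rw [he_symm_comp, factorPow_evalₐ])
  have hF : ∀ n x, AdicCompletion.evalₐ J n (F x) = e n (AdicCompletion.evalₐ I n x) :=
    fun n x => AdicCompletion.evalₐ_liftRingHom _ _ _ _ _
  have hG : ∀ n x, AdicCompletion.evalₐ I n (G x) = (e n).symm (AdicCompletion.evalₐ J n x) :=
    fun n x => AdicCompletion.evalₐ_liftRingHom _ _ _ _ _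
  refine ⟨RingEquiv.ofRingHom F G ?_ ?_⟩
  · ext1 x
    apply AdicCompletion.ext_evalₐ
    intro n
    show AdicCompletion.evalₐ J n (F (G x)) = AdicCompletion.evalₐ J n x
    rw [hF, hG, RingEquiv.apply_symm_apply]
  · ext1 x
    apply AdicCompletion.ext_evalₐ
    intro n
    show AdicCompletion.evalₐ I n (G (F x)) = AdicCompletion.evalₐ I n x
    rw [hG, hF, RingEquiv.symm_apply_apply]

end completion



open MvPolynomial IsLocalRing

theorem sub_C_constantCoeff_mem {K σ : Type*} [CommRing K] (p : MvPolynomial σ K) :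
    p - C (constantCoeff p) ∈ idealOfVars σ K := by
  have := (mem_pow_idealOfVars_iff' (σ := σ) (R := K) 1 (p - C (constantCoeff p))).mpr (by
    intro x hx
    have hx0 : x = 0 := by
      rw [Nat.lt_one_iff] at hx
      exact (Finsupp.degree_eq_zero_iff x).mp hx
    subst hx0
    simp [constantCoeff_eq])
  simpa using this

section local_

variable {K O : Type*} [Field K] [CommRing O] [Algebra K O] [IsLocalRing O]

theorem algebraMap_mem_maximalIdeal_iff (c : K) :
    algebraMap K O c ∈ maximalIdeal O ↔ c = 0 := by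
  constructor
  · intro h
    by_contra hc
    have : IsUnit (algebraMap K O c) := (IsUnit.mk0 c hc).map _
    exact (IsLocalRing.mem_maximalIdeal _).mp h this
  · rintro rfl; simp

theorem smul_cotangent (c : K) (v : CotangentSpace O) :
    algebraMap K O c • v = algebraMap K (ResidueField O) c • v := by
  rw [IsScalarTower.algebraMap_apply K O (ResidueField O)]
  exact (algebraMap_smul (ResidueField O) _ v).symm

variable {g : ℕ} (b : Module.Basis (Fin g) (ResidueField O) (CotangentSpace O))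
  (x : Fin g → maximalIdeal O) (hx : ∀ i, (maximalIdeal O).toCotangent (x i) = b i)

include hx in
theorem toCotangent_sum (c : Fin g → K) :
    (maximalIdeal O).toCotangent (∑ i, algebraMap K O (c i) • x i) =
      ∑ i, algebraMap K (ResidueField O) (c i) • b i := by
  rw [map_sum]
  refine Finset.sum_congr rfl fun i _ => ?_
  rw [map_smul, hx, smul_cotangent]

theorem aeval_X_mem (i : Fin g) :
    (aeval (fun i => (x i : O)) : MvPolynomial (Fin g) K →ₐ[K] O) (X i) ∈ maximalIdeal O := by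
  rw [aeval_X]; exact (x i).2

theorem hc1 (p : MvPolynomial (Fin g) K)
    (hp : aeval (fun i => (x i : O)) p ∈ maximalIdeal O) : p ∈ idealOfVars (Fin g) K := by
  have h1 := sub_C_constantCoeff_mem p
  have h2 := map_pow_mem (maximalIdeal O) (aeval (fun i => (x i : O))) (aeval_X_mem x) 1 _
    (by simpa using h1)
  rw [pow_one, map_sub, aeval_C] at h2
  have h3 := Ideal.sub_mem _ hp h2
  rw [sub_sub_cancel, algebraMap_mem_maximalIdeal_iff] at h3
  rw [h3, map_zero, sub_zero] at h1
  exact h1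

include hx in
theorem hc2 (p : MvPolynomial (Fin g) K)
    (hp : aeval (fun i => (x i : O)) p ∈ maximalIdeal O ^ 2) : p ∈ idealOfVars (Fin g) K ^ 2 := by
  have h1 : p ∈ idealOfVars (Fin g) K := hc1 x p (Ideal.pow_le_self (by norm_num) hp)
  rw [idealOfVars, Ideal.mem_span_range_iff_exists_fun] at h1
  obtain ⟨q, rfl⟩ := h1
  set c : Fin g → K := fun i => constantCoeff (q i) with hc
  have hr : ∑ i, (q i - C (c i)) * X i ∈ idealOfVars (Fin g) K ^ 2 := by
    refine Ideal.sum_mem _ fun i _ => ?_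
    rw [pow_two]
    exact Ideal.mul_mem_mul (sub_C_constantCoeff_mem _) (Ideal.subset_span ⟨i, rfl⟩)
  have hr' := map_pow_mem (maximalIdeal O) (aeval (fun i => (x i : O))) (aeval_X_mem x) 2 _ hr
  have h2 := Ideal.sub_mem _ hp hr'
  rw [← map_sub, ← Finset.sum_sub_distrib] at h2
  have h3 : ∀ i, q i * X i - (q i - C (c i)) * X i = C (c i) * X i := fun i => by ring
  simp only [h3, map_sum, map_mul, aeval_C, aeval_X] at h2
  have h4 : ((∑ i, algebraMap K O (c i) • x i : maximalIdeal O) : O) ∈ maximalIdeal O ^ 2 := by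
    simpa [Algebra.smul_def] using h2
  rw [← Ideal.toCotangent_eq_zero, toCotangent_sum b x hx] at h4
  have h5 := (Fintype.linearIndependent_iff.mp b.linearIndependent) _ h4
  have h6 : ∀ i, c i = 0 := fun i => by
    have := h5 i
    rwa [map_eq_zero] at this
  simpa [h6] using hr

include hx in
theorem hs (hres : Function.Surjective (algebraMap K (ResidueField O))) (a : O) :
    ∃ p : MvPolynomial (Fin g) K, a - aeval (fun i => (x i : O)) p ∈ maximalIdeal O ^ 2 := by
  obtain ⟨c, hc⟩ := hres (residue O a)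
  have ha' : a - algebraMap K O c ∈ maximalIdeal O := by
    rw [← residue_eq_zero_iff, map_sub, ← hc, IsScalarTower.algebraMap_apply K O (ResidueField O)]
    exact sub_self _
  set y := (maximalIdeal O).toCotangent ⟨_, ha'⟩ with hy
  choose d hd using fun i => hres (b.repr y i)
  refine ⟨C c + ∑ i, C (d i) * X i, ?_⟩
  have h1 : ((⟨_, ha'⟩ - ∑ i, algebraMap K O (d i) • x i : maximalIdeal O) : O) ∈
      maximalIdeal O ^ 2 := by
    rw [← Ideal.toCotangent_eq_zero, map_sub, toCotangent_sum b x hx, ← hy]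
    simp only [hd]
    rw [b.sum_repr, sub_self]
  have e : a - aeval (fun i => (x i : O)) (C c + ∑ i, C (d i) * X i) =
      ((⟨_, ha'⟩ - ∑ i, algebraMap K O (d i) • x i : maximalIdeal O) : O) := by
    simp [sub_sub, Algebra.smul_def]
  rw [e]; exact h1

end local_


end Fermat.Agent.S26.Completion

namespace Fermat.Agent.S26

open IsLocalRing

/-- TASK S26/UFD-Completion.  Choose `x₁..x_g ∈ 𝔪` lifting a basis of `𝔪/𝔪²`.  `φₙ : K[x]/(x)ⁿ → O/𝔪ⁿ` is
surjective.  By formal smoothness `O → O/𝔪² ≃ K[x]/(x)²` lifts to `ψₙ : O → K[x]/(x)ⁿ`, which kills `𝔪ⁿ`;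
`ψₙ ∘ φₙ` is the identity mod `(x)²`, hence surjective, hence bijective (finite dimension).  So `φₙ` is an
isomorphism for all `n`, compatibly; pass to the limit and use `MvPowerSeries.toAdicCompletionAlgEquiv`. -/
theorem nonempty_adicCompletion_equiv (K O : Type*) [Field K] [CommRing O] [Algebra K O]
    [IsLocalRing O] [IsNoetherianRing O] [Algebra.FormallySmooth K O]
    (hres : Function.Bijective (algebraMap K (ResidueField O)))
    (g : ℕ) (hg : Module.finrank (ResidueField O) (CotangentSpace O) = g) :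
    Nonempty (AdicCompletion (maximalIdeal O) O ≃+* MvPowerSeries (Fin g) K) := by
  let b : Module.Basis (Fin g) (ResidueField O) (CotangentSpace O) :=
    Module.finBasisOfFinrankEq _ _ hg
  choose x hx using fun i => Ideal.toCotangent_surjective (maximalIdeal O) (b i)
  let φ : MvPolynomial (Fin g) K →ₐ[K] O := MvPolynomial.aeval (fun i => (x i : O))
  have ha := Completion.aeval_X_mem (K := K) x
  have hs := Completion.hs b x hx hres.2
  have hc1 := Completion.hc1 (K := K) x
  have hc2 := Completion.hc2 (K := K) b x hx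
  obtain ⟨e⟩ := Completion.nonempty_equiv_of_levelwise (MvPolynomial.idealOfVars (Fin g) K)
    (maximalIdeal O) φ.toRingHom
    (fun n p hp => Completion.map_pow_mem _ φ ha n p hp)
    (fun n p hp => Completion.mem_pow_of_map_mem _ φ ha hs hc1 hc2 n p hp)
    (fun n a => Completion.exists_sub_mem_pow _ φ hs hc1 n a)
  exact ⟨e.symm.trans (MvPowerSeries.toAdicCompletionAlgEquiv (Fin g) K).symm.toRingEquiv⟩

end Fermat.Agent.S26
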