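import Mathlib

/-! # S26 / M4c : factoriality descends along flat local homomorphisms. -/

set_option autoImplicit false

namespace Fermat.Agent.S26

namespace UFDDescent

/-- In a local domain, if the principal ideal `(d)`, `d ≠ 0`, is spanned by a set `T`, then some
element of `T` is associated to `d`. -/
theorem exists_mem_eq_mul_unit {S : Type*} [CommRing S] [IsDomain S] [IsLocalRing S] (T : Set S)
    (d : S) (hd : d ≠ 0) (h : Ideal.span T = Ideal.span {d}) :
    ∃ t ∈ T, ∃ u : S, IsUnit u ∧ t = d * u := by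
  by_contra hcon
  push Not at hcon
  have h1 : Ideal.span T ≤ Ideal.span {d} * IsLocalRing.maximalIdeal S := by
    rw [Ideal.span_le]
    intro t ht
    have htd : t ∈ Ideal.span {d} := h ▸ Ideal.subset_span ht
    obtain ⟨u, rfl⟩ := Ideal.mem_span_singleton'.mp htd
    have hu : ¬ IsUnit u := fun hu => hcon _ ht u hu (mul_comm _ _)
    rw [mul_comm u d]
    exact Ideal.mul_mem_mul (Ideal.mem_span_singleton_self d)
      ((IsLocalRing.mem_maximalIdeal u).mpr hu)
  have h2 : d ∈ Ideal.span {d} * IsLocalRing.maximalIdeal S :=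
    h1 (h ▸ Ideal.mem_span_singleton_self d)
  rw [Ideal.mem_span_singleton_mul] at h2
  obtain ⟨n, hn, hdn⟩ := h2
  have h3 : d * (1 - n) = 0 := by rw [mul_sub, mul_one, hdn, sub_self]
  have h4 : IsUnit (1 - n) := by
    by_contra h4
    have h5 : (1 - n) ∈ IsLocalRing.maximalIdeal S := (IsLocalRing.mem_maximalIdeal _).mpr h4
    have h6 : (1 : S) ∈ IsLocalRing.maximalIdeal S := by
      have := Ideal.add_mem _ h5 hn
      simp at this
    exact (IsLocalRing.maximalIdeal.isMaximal S).ne_top ((Ideal.eq_top_iff_one _).mpr h6)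
  rcases mul_eq_zero.mp h3 with h | h
  · exact hd h
  · exact h4.ne_zero h

/-- The colon ideal `(a : b) = {x | a ∣ b * x}`. -/
def colon {R : Type*} [CommRing R] (a b : R) : Ideal R :=
  Submodule.comap (LinearMap.mulLeft R b) (Ideal.span {a})

theorem mem_colon {R : Type*} [CommRing R] {a b x : R} : x ∈ colon a b ↔ a ∣ b * x := by
  simp [colon, Ideal.mem_span_singleton]

/-- Flat base change of a colon ideal (one inclusion). -/
theorem mem_map_colon {R S : Type*} [CommRing R] [CommRing S] [Algebra R S] [Module.Flat R S]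
    (a b : R) (s t : S) (h : algebraMap R S b * s = algebraMap R S a * t) :
    s ∈ (colon a b).map (algebraMap R S) := by
  have hrel : ∑ i : Fin 2, (![b, -a] i) • (![s, t] i) = 0 := by
    simp [Fin.sum_univ_two, Algebra.smul_def, h]
  obtain ⟨k, c, y, hxy, hc⟩ := Module.Flat.isTrivialRelation_of_sum_smul_eq_zero (R := R) (M := S)
    (f := ![b, -a]) (x := ![s, t]) hrel
  have hs : s = ∑ j, c 0 j • y j := by simpa using hxy 0
  rw [hs]
  refine Ideal.sum_mem _ fun j _ => ?_
  rw [Algebra.smul_def]
  refine Ideal.mul_mem_right _ _ (Ideal.mem_map_of_mem _ ?_)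
  rw [mem_colon]
  have := hc j
  simp only [Fin.sum_univ_two, Matrix.cons_val_zero, Matrix.cons_val_one] at this
  refine ⟨c 1 j, ?_⟩
  have h2 : b * c 0 j + -a * c 1 j = 0 := by simpa using this
  linear_combination h2

end UFDDescent

open UFDDescent in
/-- TASK S26/UFD-Descent.  For `a b : R`, `I = aR ∩ bR`; by flatness `I S = aS ∩ bS` is principal
(`S` is a GCD domain) and `I ⊗ S ≃ I S`, so `dim I/𝔪I = dim IS/𝔫IS = 1`, so `I` is principal (Nakayama).
Hence `R` has lcm's (`gcdMonoidOfExistsLCM`), and noetherian + GCD ⇒ UFD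
(`ufm_of_decomposition_of_wfDvdMonoid`). -/
theorem ufd_of_flat_of_isLocalHom {R S : Type*} [CommRing R] [IsDomain R] [IsNoetherianRing R]
    [IsLocalRing R] [CommRing S] [IsDomain S] [IsLocalRing S] [Algebra R S] [Module.Flat R S]
    [IsLocalHom (algebraMap R S)] [UniqueFactorizationMonoid S] :
    UniqueFactorizationMonoid R := by
  have : Module.FaithfullyFlat R S := Module.FaithfullyFlat.of_flat_of_isLocalHom
  have hinj : Function.Injective (algebraMap R S) := FaithfulSMul.algebraMap_injective R S
  -- every colon ideal `(a : b)`, `a ≠ 0`, is principal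
  have key : ∀ a b : R, a ≠ 0 → ∃ x₀ : R, colon a b = Ideal.span {x₀} := by
    intro a b ha
    have ha' : algebraMap R S a ≠ 0 := by
      rwa [Ne, map_eq_zero_iff _ hinj]
    obtain ⟨a', b', g, hrel, hga, hgb⟩ :=
      UniqueFactorizationMonoid.exists_reduced_factors (algebraMap R S a) ha' (algebraMap R S b)
    have hg : g ≠ 0 := by
      rintro rfl
      exact ha' (by rw [← hga, zero_mul])
    have ha'0 : a' ≠ 0 := by
      rintro rfl
      exact ha' (by rw [← hga, mul_zero])
    have hmap : (colon a b).map (algebraMap R S) = Ideal.span {a'} := by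
      apply le_antisymm
      · rw [Ideal.map_le_iff_le_comap]
        intro x hx
        rw [mem_colon] at hx
        rw [Ideal.mem_comap, Ideal.mem_span_singleton]
        have h1 : algebraMap R S a ∣ algebraMap R S b * algebraMap R S x := by
          rw [← map_mul]
          exact map_dvd _ hx
        rw [← hga, ← hgb, mul_assoc] at h1
        have h2 : a' ∣ b' * algebraMap R S x := (mul_dvd_mul_iff_left hg).mp h1
        exact hrel.dvd_of_dvd_mul_left h2
      · rw [Ideal.span_singleton_le_iff_mem]
        apply mem_map_colon a b a' b'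
        rw [← hga, ← hgb]
        ring
    obtain ⟨t, ⟨x₀, hx₀, rfl⟩, u, hu, htu⟩ :=
      exists_mem_eq_mul_unit (algebraMap R S '' (colon a b : Set R)) a' ha'0 hmap
    refine ⟨x₀, le_antisymm ?_ ?_⟩
    · intro x hx
      have h1 : algebraMap R S x ∈ (Ideal.span {x₀}).map (algebraMap R S) := by
        rw [Ideal.map_span, Set.image_singleton, htu]
        have h2 : algebraMap R S x ∈ Ideal.span {a'} := hmap ▸ Ideal.mem_map_of_mem _ hx
        rw [Ideal.mem_span_singleton] at h2 ⊢
        exact (hu.mul_right_dvd).mpr h2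
      have h3 : x ∈ ((Ideal.span {x₀}).map (algebraMap R S)).comap (algebraMap R S) := h1
      rwa [Ideal.comap_map_eq_self_of_faithfullyFlat] at h3
    · rw [Ideal.span_singleton_le_iff_mem]
      exact hx₀
  refine ⟨fun {a} => ⟨fun hirr => ?_, Prime.irreducible⟩⟩
  refine ⟨hirr.ne_zero, hirr.not_isUnit, fun b c hbc => ?_⟩
  obtain ⟨x₀, hx₀⟩ := key a b hirr.ne_zero
  have ha : a ∈ colon a b := mem_colon.mpr (Dvd.intro_left b rfl)
  have hc : c ∈ colon a b := mem_colon.mpr hbc
  rw [hx₀, Ideal.mem_span_singleton] at ha hc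
  obtain ⟨y, hy⟩ := ha
  rcases hirr.isUnit_or_isUnit hy with h | h
  · left
    have h1 : (1 : R) ∈ colon a b := by
      rw [hx₀, Ideal.mem_span_singleton]
      exact h.dvd
    simpa using mem_colon.mp h1
  · right
    rw [hy]
    exact (h.mul_right_dvd).mpr hc

end Fermat.Agent.S26
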