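import Fermat.Agent.S26.UFD.PowerSeries
import Fermat.Agent.S26.UFD.Descent
import Fermat.Agent.S26.UFD.Completion

/-! # S26 / M4 : formally smooth noetherian local `K`-algebras with residue field `K` are UFDs. -/

set_option autoImplicit false

namespace Fermat.Agent.S26

open IsLocalRing

/-- TASK S26/UFD-Smooth (glue).  `O → Ô` is flat (`AdicCompletion.flat_of_isNoetherian`), injective
(Krull intersection), local; `Ô ≃ K⟦x⟧` is a local domain and a UFD. -/
theorem isDomain_of_formallySmooth (K O : Type*) [Field K] [CommRing O] [Algebra K O]
    [IsLocalRing O] [IsNoetherianRing O] [Algebra.FormallySmooth K O]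
    (hres : Function.Bijective (algebraMap K (ResidueField O))) : IsDomain O := by
  obtain ⟨e⟩ := nonempty_adicCompletion_equiv K O hres _ rfl
  have hP : IsDomain (MvPowerSeries (Fin (Module.finrank (ResidueField O) (CotangentSpace O))) K) :=
    NoZeroDivisors.to_isDomain _
  have hinj : Function.Injective
      ((e : AdicCompletion (maximalIdeal O) O →+*
          MvPowerSeries (Fin (Module.finrank (ResidueField O) (CotangentSpace O))) K).comp
        (algebraMap O (AdicCompletion (maximalIdeal O) O))) :=
    e.injective.comp (AdicCompletion.of_injective (maximalIdeal O) O)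
  exact hinj.isDomain _

theorem ufd_of_formallySmooth (K O : Type*) [Field K] [CommRing O] [IsDomain O] [Algebra K O]
    [IsLocalRing O] [IsNoetherianRing O] [Algebra.FormallySmooth K O]
    (hres : Function.Bijective (algebraMap K (ResidueField O))) : UniqueFactorizationMonoid O := by
  obtain ⟨e⟩ := nonempty_adicCompletion_equiv K O hres _ rfl
  have hP : IsDomain (MvPowerSeries (Fin (Module.finrank (ResidueField O) (CotangentSpace O))) K) :=
    NoZeroDivisors.to_isDomain _
  have hdom : IsDomain (AdicCompletion (maximalIdeal O) O) := e.toMulEquiv.isDomain _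
  have hufd0 := ufd_mvPowerSeries K (Module.finrank (ResidueField O) (CotangentSpace O))
  have hufd : UniqueFactorizationMonoid (AdicCompletion (maximalIdeal O) O) :=
    e.symm.toMulEquiv.uniqueFactorizationMonoid hufd0
  exact ufd_of_flat_of_isLocalHom (R := O) (S := AdicCompletion (maximalIdeal O) O)

end Fermat.Agent.S26
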