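import Mathlib

/-! # S26 / M4b : `K⟦x₁,…,x_d⟧` is a UFD (Weierstrass preparation + Gauss lemma, induction on `d`). -/

set_option autoImplicit false
set_option linter.unusedSectionVars false

namespace Fermat.Agent.S26

namespace UFDPS

section Part1

open scoped Polynomial PowerSeries

/-- `a` has a factorisation into primes. -/
def HasPF {α : Type*} [CommMonoidWithZero α] (a : α) : Prop :=
  ∃ s : Multiset α, (∀ b ∈ s, Prime b) ∧ Associated s.prod a

theorem HasPF.of_mulEquiv {α β : Type*} [CommMonoidWithZero α] [CommMonoidWithZero β]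
    (e : α ≃* β) {a : α} (h : HasPF (e a)) : HasPF a := by
  obtain ⟨s, hs, hsa⟩ := h
  refine ⟨s.map e.symm, ?_, ?_⟩
  · intro b hb
    obtain ⟨c, hc, rfl⟩ := Multiset.mem_map.mp hb
    exact (MulEquiv.prime_iff e.symm).mpr (hs c hc)
  · have := hsa.map e.symm
    rwa [map_multiset_prod, e.symm_apply_apply] at this

section Weierstrass

variable {A : Type*} [CommRing A] [IsDomain A] [IsLocalRing A]
  [IsAdicComplete (IsLocalRing.maximalIdeal A) A]

theorem prime_coe_of_distinguished {b : A[X]} (hb : Prime b)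
    (hd : b.IsDistinguishedAt (IsLocalRing.maximalIdeal A)) : Prime (b : A⟦X⟧) := by
  have h1 : (Ideal.span {b}).IsPrime := (Ideal.span_singleton_prime hb.ne_zero).mpr hb
  have h2 : IsDomain (A[X] ⧸ Ideal.span {b}) := Ideal.Quotient.isDomain _
  have h3 : IsDomain (A⟦X⟧ ⧸ Ideal.span {(b : A⟦X⟧)}) :=
    hd.algEquivQuotient.symm.toMulEquiv.isDomain
  have h4 : (Ideal.span {(b : A⟦X⟧)}).IsPrime := (Ideal.Quotient.isDomain_iff_prime _).mp h3
  exact (Ideal.span_singleton_prime (by simpa using hb.ne_zero)).mp h4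

theorem prime_coe_of_dvd {b f : A[X]} (hb : Prime b)
    (hf : f.IsDistinguishedAt (IsLocalRing.maximalIdeal A)) (hbf : b ∣ f) :
    Prime (b : A⟦X⟧) := by
  obtain ⟨u, hu⟩ := hf.monic.isUnit_leadingCoeff_of_dvd hbf
  have hmon : (Polynomial.C (↑u⁻¹ : A) * b).Monic :=
    Polynomial.monic_C_mul_of_mul_leadingCoeff_eq_one (by rw [← hu]; simp)
  have hunit : IsUnit (Polynomial.C (↑u⁻¹ : A)) := Polynomial.isUnit_C.mpr (Units.isUnit _)
  have hassoc : Associated (Polynomial.C (↑u⁻¹ : A) * b) b := by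
    obtain ⟨v, hv⟩ := hunit
    rw [← hv]
    exact (associated_unit_mul_left b v (Units.isUnit v))
  have hprime : Prime (Polynomial.C (↑u⁻¹ : A) * b) := hassoc.symm.prime hb
  have hdvd : Polynomial.C (↑u⁻¹ : A) * b ∣ f := hassoc.dvd.trans hbf
  have hdist : (Polynomial.C (↑u⁻¹ : A) * b).IsDistinguishedAt (IsLocalRing.maximalIdeal A) := by
    refine ⟨⟨?_⟩, hmon⟩
    intro n hn
    have h1 : (Polynomial.C (↑u⁻¹ : A) * b).map (Ideal.Quotient.mk (IsLocalRing.maximalIdeal A)) ∣
        Polynomial.X ^ f.natDegree := by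
      rw [← hf.map_eq_X_pow]
      exact Polynomial.map_dvd _ hdvd
    obtain ⟨i, -, hi⟩ := (dvd_prime_pow Polynomial.prime_X _).mp h1
    have h2 := Polynomial.eq_of_monic_of_associated (hmon.map _) (Polynomial.monic_X_pow i) hi
    have h3 : (Polynomial.C (↑u⁻¹ : A) * b).natDegree = i := by
      rw [← hmon.natDegree_map (Ideal.Quotient.mk (IsLocalRing.maximalIdeal A)), h2,
        Polynomial.natDegree_X_pow]
    have h4 := congrArg (fun p => Polynomial.coeff p n) h2
    simp only [Polynomial.coeff_map, Polynomial.coeff_X_pow] at h4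
    rw [if_neg (by omega)] at h4
    exact Ideal.Quotient.eq_zero_iff_mem.mp h4
  have h5 := prime_coe_of_distinguished hprime hdist
  have h6 : Associated ((Polynomial.C (↑u⁻¹ : A) * b : A[X]) : A⟦X⟧) (b : A⟦X⟧) :=
    hassoc.map (Polynomial.coeToPowerSeries.ringHom (R := A))
  exact h6.prime h5

theorem hasPF_of_map_ne_zero [UniqueFactorizationMonoid A] {g : A⟦X⟧}
    (hg : g.map (IsLocalRing.residue A) ≠ 0) : HasPF g := by
  obtain ⟨f, h, H⟩ := PowerSeries.exists_isWeierstrassFactorization hg
  have hf0 : f ≠ 0 := H.isDistinguishedAt.monic.ne_zero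
  obtain ⟨s, hs, hsf⟩ := UniqueFactorizationMonoid.exists_prime_factors f hf0
  refine ⟨s.map (Polynomial.coeToPowerSeries.ringHom (R := A)), ?_, ?_⟩
  · intro b hb
    obtain ⟨c, hc, rfl⟩ := Multiset.mem_map.mp hb
    exact prime_coe_of_dvd (hs c hc) H.isDistinguishedAt ((Multiset.dvd_prod hc).trans hsf.dvd)
  · have h1 := hsf.map (Polynomial.coeToPowerSeries.ringHom (R := A))
    rw [map_multiset_prod] at h1
    refine h1.trans ?_
    rw [H.eq_mul]
    obtain ⟨v, hv⟩ := H.isUnit
    exact ⟨v, by rw [hv]; rfl⟩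

end Weierstrass

end Part1

section Part2

open MvPowerSeries

theorem mem_span_range_X_aux {σ R : Type*} [CommRing R] (T : Finset σ) :
    ∀ f : MvPowerSeries σ R, (∀ e : σ →₀ ℕ, (∀ s ∈ T, e s = 0) → coeff e f = 0) →
      f ∈ Ideal.span (Set.range (X : σ → MvPowerSeries σ R)) := by
  classical
  induction T using Finset.induction_on with
  | empty =>
    intro f hf
    have : f = 0 := by
      ext e
      simpa using hf e (by simp)
    rw [this]
    exact Ideal.zero_mem _
  | insert s T hs ih =>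
    intro f hf
    let q : MvPowerSeries σ R := fun e => coeff (e + Finsupp.single s 1) f
    let r : MvPowerSeries σ R := fun e => if e s = 0 then coeff e f else 0
    have hq : ∀ e, coeff e q = coeff (e + Finsupp.single s 1) f := fun e => rfl
    have hr : ∀ e, coeff e r = if e s = 0 then coeff e f else 0 := fun e => rfl
    have hfqr : f = X s * q + r := by
      ext e
      rw [map_add, hr, X_def, coeff_monomial_mul, hq, one_mul]
      by_cases hes : e s = 0
      · rw [if_pos hes, if_neg, zero_add]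
        intro hle
        have := hle s
        simp only [Finsupp.single_eq_same] at this
        omega
      · rw [if_neg hes, add_zero, if_pos, tsub_add_cancel_of_le]
        · rw [Finsupp.single_le_iff]
          omega
        · rw [Finsupp.single_le_iff]
          omega
    rw [hfqr]
    refine Ideal.add_mem _ (Ideal.mul_mem_right _ _ (Ideal.subset_span ⟨s, rfl⟩)) (ih r ?_)
    intro e he
    rw [hr]
    split_ifs with hes
    · refine hf e ?_
      intro t ht
      rcases Finset.mem_insert.mp ht with rfl | ht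
      · exact hes
      · exact he t ht
    · rfl

theorem maximalIdeal_eq_span_range_X (σ K : Type*) [Finite σ] [Field K] :
    IsLocalRing.maximalIdeal (MvPowerSeries σ K) = Ideal.span (Set.range X) := by
  classical
  have := Fintype.ofFinite σ
  apply le_antisymm
  · intro f hf
    refine mem_span_range_X_aux Finset.univ f ?_
    intro e he
    have he0 : e = 0 := by
      ext s
      simpa using he s (Finset.mem_univ s)
    rw [he0, coeff_zero_eq_constantCoeff_apply]
    by_contra hne
    exact (IsLocalRing.mem_maximalIdeal f).mp hf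
      (MvPowerSeries.isUnit_iff_constantCoeff.mpr (isUnit_iff_ne_zero.mpr hne))
  · rw [Ideal.span_le]
    rintro _ ⟨s, rfl⟩
    rw [SetLike.mem_coe, IsLocalRing.mem_maximalIdeal, mem_nonunits_iff,
      MvPowerSeries.isUnit_iff_constantCoeff]
    simp

theorem isAdicComplete_maximalIdeal (σ K : Type*) [Finite σ] [Field K] :
    IsAdicComplete (IsLocalRing.maximalIdeal (MvPowerSeries σ K)) (MvPowerSeries σ K) := by
  rw [maximalIdeal_eq_span_range_X]
  infer_instance

end Part2

section Part3

theorem exists_weights (n : ℕ) : ∀ S : Set (Fin (n + 1) → ℕ), S.Nonempty →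
    ∃ e : Fin (n + 1) → ℕ, e 0 = 1 ∧ (∀ i, 0 < e i) ∧ ∃ m₀ ∈ S, ∀ m ∈ S, m ≠ m₀ →
      ∑ i, e i * m₀ i < ∑ i, e i * m i := by
  induction n with
  | zero =>
    intro S hS
    have hT : ((fun m : Fin 1 → ℕ => m 0) '' S).Nonempty := hS.image _
    obtain ⟨m₀, hm₀, hk⟩ := Nat.sInf_mem hT
    refine ⟨fun _ => 1, rfl, fun _ => one_pos, m₀, hm₀, ?_⟩
    intro m hm hne
    have h1 : sInf ((fun m : Fin 1 → ℕ => m 0) '' S) ≤ m 0 := Nat.sInf_le ⟨m, hm, rfl⟩
    have h2 : m 0 ≠ m₀ 0 := by
      intro h
      apply hne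
      funext i
      have hi : i = 0 := Fin.fin_one_eq_zero i
      rw [hi, h]
    simp only [Fin.sum_univ_succ, Finset.univ_eq_empty, Finset.sum_empty, one_mul, add_zero]
    simp only at hk
    omega
  | succ n ih =>
    intro S hS
    have hT : ((fun m : Fin (n + 2) → ℕ => m (Fin.last _)) '' S).Nonempty := hS.image _
    obtain ⟨k, hkdef⟩ : ∃ k, k = sInf ((fun m : Fin (n + 2) → ℕ => m (Fin.last _)) '' S) := ⟨_, rfl⟩
    obtain ⟨m₁, hm₁, hk⟩ := Nat.sInf_mem hT
    simp only at hk
    rw [← hkdef] at hk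
    have hS' : {m' : Fin (n + 1) → ℕ | (Fin.snoc m' k : Fin (n + 2) → ℕ) ∈ S}.Nonempty := by
      refine ⟨Fin.init m₁, ?_⟩
      show (Fin.snoc (Fin.init m₁) k : Fin (n + 2) → ℕ) ∈ S
      rw [← hk, Fin.snoc_init_self]
      exact hm₁
    obtain ⟨e', he0, hepos, m₀', hm₀', hmin⟩ := ih _ hS'
    obtain ⟨c, hc⟩ : ∃ c, c = 1 + ∑ i, e' i * m₀' i := ⟨_, rfl⟩
    have hsum : ∀ m : Fin (n + 2) → ℕ, ∑ i, (Fin.snoc e' c : Fin (n + 2) → ℕ) i * m i =
        ∑ i : Fin (n + 1), e' i * m i.castSucc + c * m (Fin.last _) := by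
      intro m
      rw [Fin.sum_univ_castSucc]
      simp only [Fin.snoc_castSucc, Fin.snoc_last]
    refine ⟨Fin.snoc e' c, ?_, ?_, Fin.snoc m₀' k, hm₀', ?_⟩
    · rw [← Fin.castSucc_zero, Fin.snoc_castSucc, he0]
    · intro i
      induction i using Fin.lastCases with
      | last => rw [Fin.snoc_last]; omega
      | cast i => rw [Fin.snoc_castSucc]; exact hepos i
    · intro m hm hne
      rw [hsum, hsum]
      simp only [Fin.snoc_castSucc, Fin.snoc_last]
      have h1 : k ≤ m (Fin.last _) := by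
        rw [hkdef]
        exact Nat.sInf_le ⟨m, hm, rfl⟩
      rcases h1.eq_or_lt with h2 | h2
      · have h3 : (Fin.snoc (Fin.init m) k : Fin (n + 2) → ℕ) = m := by
          rw [h2, Fin.snoc_init_self]
        have h4 : Fin.init m ≠ m₀' := by
          intro h
          apply hne
          rw [← h3, h]
        have h5 := hmin (Fin.init m)
          (by show (Fin.snoc (Fin.init m) k : Fin (n + 2) → ℕ) ∈ S; rw [h3]; exact hm) h4
        rw [← h2]
        simp only [Fin.init] at h5
        omega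
      · have h3 : c * (k + 1) ≤ c * m (Fin.last _) := Nat.mul_le_mul_left _ h2
        have h4 : c * (k + 1) = c * k + c := by ring
        have h5 : 0 ≤ ∑ i : Fin (n + 1), e' i * m i.castSucc := Nat.zero_le _
        omega

end Part3

section Part4

open MvPowerSeries

variable {K : Type*} [Field K] {d : ℕ}

/-- the family `x₀ ↦ x₀`, `xᵢ ↦ xᵢ + c x₀ ^ eᵢ`. -/
noncomputable def shear (c : K) (e : Fin (d + 1) → ℕ) (i : Fin (d + 1)) :
    MvPowerSeries (Fin (d + 1)) K :=
  if i = 0 then X 0 else X i + C c * X 0 ^ e i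

theorem hasSubst_shear (c : K) {e : Fin (d + 1) → ℕ} (he : ∀ i, 0 < e i) :
    HasSubst (shear c e) := by
  refine hasSubst_of_constantCoeff_zero fun i => ?_
  unfold shear
  split_ifs with h
  · simp
  · simp [(he i).ne']

theorem subst_shear_shear (c : K) {e : Fin (d + 1) → ℕ} (he : ∀ i, 0 < e i)
    (f : MvPowerSeries (Fin (d + 1)) K) :
    subst (shear (-c) e) (subst (shear c e) f) = f := by
  rw [subst_comp_subst_apply (hasSubst_shear c he) (hasSubst_shear (-c) he)]
  have : (fun s => subst (shear (-c) e) (shear c e s)) =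
      (X : Fin (d + 1) → MvPowerSeries (Fin (d + 1)) K) := by
    funext s
    have hb := hasSubst_shear (-c) he
    by_cases hs : s = 0
    · subst hs
      simp [shear, subst_X hb]
    · simp only [shear, if_neg hs]
      rw [subst_add hb, subst_mul hb, subst_pow hb, subst_X hb, subst_X hb, subst_C]
      simp [shear, if_neg hs]
  rw [this, subst_self]
  rfl

/-- the shear automorphism. -/
noncomputable def shearEquiv (c : K) {e : Fin (d + 1) → ℕ} (he : ∀ i, 0 < e i) :
    MvPowerSeries (Fin (d + 1)) K ≃+* MvPowerSeries (Fin (d + 1)) K :=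
  RingEquiv.ofRingHom (substAlgHom (R := K) (hasSubst_shear c he)).toRingHom
    (substAlgHom (R := K) (hasSubst_shear (-c) he)).toRingHom
    (by
      ext1 f
      have := subst_shear_shear (-c) he f
      rw [neg_neg] at this
      simpa using this)
    (by
      ext1 f
      simpa using subst_shear_shear c he f)

theorem shearEquiv_apply (c : K) {e : Fin (d + 1) → ℕ} (he : ∀ i, 0 < e i)
    (f : MvPowerSeries (Fin (d + 1)) K) : shearEquiv c he f = subst (shear c e) f := by
  simp [shearEquiv]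

/-- restriction to the `x₀`-axis. -/
noncomputable def axis : MvPowerSeries (Fin (d + 1)) K →+* PowerSeries K :=
  (PowerSeries.map (constantCoeff (σ := Fin d) (R := K))).comp (finSuccEquiv K d).toRingHom

theorem coeff_axis (n : ℕ) (f : MvPowerSeries (Fin (d + 1)) K) :
    PowerSeries.coeff n (axis f) = constantCoeff (PowerSeries.coeff n (finSuccEquiv K d f)) := by
  simp [axis]

theorem coeff_axis' (n : ℕ) (f : MvPowerSeries (Fin (d + 1)) K) :
    PowerSeries.coeff n (axis f) = coeff (Finsupp.cons n 0) f := by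
  rw [coeff_axis, ← coeff_zero_eq_constantCoeff_apply, coeff_coeff_finSuccEquiv]

theorem axis_X_zero : axis (X 0 : MvPowerSeries (Fin (d + 1)) K) = PowerSeries.X := by
  simp [axis, finSuccEquiv_X_zero]

theorem axis_X_succ (j : Fin d) : axis (X j.succ : MvPowerSeries (Fin (d + 1)) K) = 0 := by
  simp [axis, finSuccEquiv_X_succ]

theorem axis_shear {e : Fin (d + 1) → ℕ} (he0 : e 0 = 1) (i : Fin (d + 1)) :
    axis (shear (1 : K) e i) = PowerSeries.X ^ e i := by
  induction i using Fin.cases with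
  | zero => simp [shear, axis_X_zero, he0]
  | succ j =>
    simp [shear, axis_X_zero, axis_X_succ, Fin.succ_ne_zero]

theorem coeff_subst_shear {e : Fin (d + 1) → ℕ} (he0 : e 0 = 1) (he : ∀ i, 0 < e i)
    (g : MvPowerSeries (Fin (d + 1)) K) (m₀ : Fin (d + 1) →₀ ℕ)
    (hmin : ∀ m : Fin (d + 1) →₀ ℕ, coeff m g ≠ 0 → m ≠ m₀ →
      ∑ i, e i * m₀ i < ∑ i, e i * m i) :
    coeff (Finsupp.cons (∑ i, e i * m₀ i) 0) (subst (shear (1 : K) e) g) = coeff m₀ g := by
  have key : ∀ (m : Fin (d + 1) →₀ ℕ) (n : ℕ),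
      coeff (Finsupp.cons n 0) (m.prod fun s k => shear (1 : K) e s ^ k) =
        if n = ∑ i, e i * m i then 1 else 0 := by
    intro m n
    rw [← coeff_axis', map_finsuppProd, Finsupp.prod_fintype _ _ (fun i => by simp)]
    simp only [map_pow, axis_shear he0, ← pow_mul, Finset.prod_pow_eq_pow_sum,
      PowerSeries.coeff_X_pow]
  rw [coeff_subst (hasSubst_shear 1 he), finsum_eq_single _ m₀, key, if_pos rfl, smul_eq_mul,
    mul_one]
  intro m hm
  rw [key]
  by_cases h0 : coeff m g = 0
  · rw [h0, zero_smul]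
  · rw [if_neg (hmin m h0 hm).ne, smul_zero]

end Part4

section Final

open MvPowerSeries

theorem exists_equiv_regular (K : Type*) [Field K] (d : ℕ) (g : MvPowerSeries (Fin (d + 1)) K)
    (hg : g ≠ 0) :
    ∃ Φ : MvPowerSeries (Fin (d + 1)) K ≃+* PowerSeries (MvPowerSeries (Fin d) K),
      (Φ g).map (IsLocalRing.residue (MvPowerSeries (Fin d) K)) ≠ 0 := by
  have hS : ((fun m : Fin (d + 1) →₀ ℕ => (m : Fin (d + 1) → ℕ)) '' {m | coeff m g ≠ 0}).Nonempty := by
    obtain ⟨m, hm⟩ : ∃ m, coeff m g ≠ 0 := by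
      by_contra h
      apply hg
      ext m
      by_contra hm
      exact h ⟨m, hm⟩
    exact ⟨_, m, hm, rfl⟩
  obtain ⟨e, he0, he, _, ⟨m₀, hm₀, rfl⟩, hmin⟩ := exists_weights d _ hS
  refine ⟨(shearEquiv (1 : K) he).trans (finSuccEquiv K d).toRingEquiv, ?_⟩
  intro h0
  have h1 := congrArg (PowerSeries.coeff (∑ i, e i * m₀ i)) h0
  rw [PowerSeries.coeff_map, map_zero, IsLocalRing.residue_eq_zero_iff,
    IsLocalRing.mem_maximalIdeal, mem_nonunits_iff, MvPowerSeries.isUnit_iff_constantCoeff,
    isUnit_iff_ne_zero, not_not] at h1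
  have h2 := coeff_subst_shear he0 he g m₀ (fun m hm hne =>
    hmin _ ⟨m, hm, rfl⟩ (fun h => hne (DFunLike.coe_injective h)))
  rw [← coeff_axis', coeff_axis, ← shearEquiv_apply (1 : K) he] at h2
  exact hm₀ (h2.symm.trans h1)

end Final

end UFDPS

/-- TASK S26/UFD-PS.  Induction on `d` via `MvPowerSeries.finSuccEquiv`, a change of variables making a
given nonzero series regular in the last variable, `PowerSeries.exists_isWeierstrassFactorization`,
`IsWeierstrassFactorization.algEquivQuotient` (`A⟦X⟧/(g) ≃ A[X]/(f)`), Gauss (`A[X]` UFD), and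
`UniqueFactorizationMonoid.of_exists_prime_factors`. -/
theorem ufd_mvPowerSeries (K : Type*) [Field K] (d : ℕ) :
    UniqueFactorizationMonoid (MvPowerSeries (Fin d) K) := by
  induction d with
  | zero =>
    refine UniqueFactorizationMonoid.of_exists_prime_factors fun g hg => ⟨0, by simp, ?_⟩
    have hu : IsUnit g := by
      rw [MvPowerSeries.isUnit_iff_constantCoeff, isUnit_iff_ne_zero]
      intro h0
      apply hg
      ext m
      rw [Subsingleton.elim m 0, MvPowerSeries.coeff_zero_eq_constantCoeff_apply, h0, map_zero]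
    rw [Multiset.prod_zero]
    exact (associated_one_iff_isUnit.mpr hu).symm
  | succ d ih =>
    have := UFDPS.isAdicComplete_maximalIdeal (Fin d) K
    have : IsDomain (MvPowerSeries (Fin d) K) := NoZeroDivisors.to_isDomain _
    refine UniqueFactorizationMonoid.of_exists_prime_factors fun g hg => ?_
    obtain ⟨Φ, hΦ⟩ := UFDPS.exists_equiv_regular K d g hg
    exact UFDPS.HasPF.of_mulEquiv Φ.toMulEquiv (UFDPS.hasPF_of_map_ne_zero hΦ)

end Fermat.Agent.S26
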